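/-
T1B / ALG-DESCENT, brick AD-frames (helper49; statement = helper46 msg 12:51Z point (3)):
**descent of a line given by frames, elementary form** (no Beauville–Laszlo, no projectivity).

Setting: fields `F → Fh` (`ι`), rings `R → Rh` (`ρ`) with `R → F`, `Rh → Fh` compatible, an element
`π : R`, nonzero in `F`, and

* (S1) `dense` : `Rh = ρ R + πⁿ Rh` for every `n`;
* (S2) `sat`   : `x ∈ R[1/π]` and `ι x ∈ Rh` imply `x ∈ R`.

Given `R[1/π]`-submodules `IK, JK ⊆ F` with `IK * JK = R[1/π]` (the global line pair) and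
`Rh`-submodules `Ih, Jh ⊆ Fh` with `Ih * Jh = 1` (the `π`-adic frames), compatible in the sense
`Ih[1/π] = IK · Rh[1/π]` (`FrameCompat`), put `I := {x ∈ IK | ι x ∈ Ih}`, `J := {x ∈ JK | ι x ∈ Jh}`
(`descend`).  Then

* `span_image_descend` : `I · Rh = Ih`;
* `descend_mul_descend` : `I * J = 1`;
* `descend_pow`         : if `IK ^ p = f R[1/π]` and `Ih ^ p = (ι f) Rh` then `I ^ p = f R`.

These are exactly the hypotheses `I * J = 1`, `I ^ p = Submodule.span R {f}` of
`Hol80.holLog_dl_of_pow_eq`.  Mathlib only.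
-/
import Mathlib

set_option autoImplicit false

namespace Fermat.Agent.T1B.AD49

variable {R Rh F Fh : Type*} [CommRing R] [CommRing Rh] [Field F] [Field Fh]
  [Algebra R F] [Algebra Rh Fh]

/-! ### The setting -/

/-- The setting of the frame descent: compatible maps, `π ≠ 0`, density (S1), saturation (S2). -/
structure FrameSetting (ι : F →+* Fh) (ρ : R →+* Rh) (π : R) : Prop where
  compat : ∀ x : R, ι (algebraMap R F x) = algebraMap Rh Fh (ρ x)
  pi_ne : algebraMap R F π ≠ 0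
  dense : ∀ (n : ℕ) (y : Rh), ∃ (x : R) (z : Rh), y = ρ x + ρ π ^ n * z
  sat : ∀ x : F, (∃ (n : ℕ) (a : R), algebraMap R F π ^ n * x = algebraMap R F a) →
    (∃ b : Rh, ι x = algebraMap Rh Fh b) → ∃ a : R, x = algebraMap R F a

/-- `R[1/π]` as an `R`-submodule of `F`. -/
def locSub (π : R) : Submodule R F where
  carrier := {x | ∃ (n : ℕ) (a : R), algebraMap R F π ^ n * x = algebraMap R F a}
  add_mem' := by
    rintro x y ⟨n, a, ha⟩ ⟨m, b, hb⟩
    refine ⟨n + m, π ^ m * a + π ^ n * b, ?_⟩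
    rw [map_add, map_mul, map_mul, map_pow, map_pow, ← ha, ← hb, pow_add]
    ring
  zero_mem' := ⟨0, 0, by rw [mul_zero, map_zero]⟩
  smul_mem' := by
    rintro c x ⟨n, a, ha⟩
    refine ⟨n, c * a, ?_⟩
    rw [Algebra.smul_def, map_mul, ← ha]
    ring

theorem mem_locSub {π : R} {x : F} :
    x ∈ locSub (F := F) π ↔ ∃ (n : ℕ) (a : R), algebraMap R F π ^ n * x = algebraMap R F a :=
  Iff.rfl

theorem one_mem_locSub (π : R) : (1 : F) ∈ locSub (F := F) π :=
  ⟨0, 1, by rw [pow_zero, mul_one, map_one]⟩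

variable {ι : F →+* Fh} {ρ : R →+* Rh} {π : R}

namespace FrameSetting

variable (hS : FrameSetting ι ρ π)

include hS

theorem map_pi : ι (algebraMap R F π) = algebraMap Rh Fh (ρ π) := hS.compat π

theorem pih_ne : algebraMap Rh Fh (ρ π) ≠ 0 := by
  rw [← hS.map_pi]
  exact (map_ne_zero ι).mpr hS.pi_ne

theorem map_smul' (c : R) (x : F) : ι (c • x) = ρ c • ι x := by
  rw [Algebra.smul_def, Algebra.smul_def, map_mul, hS.compat]

/-- **Density**: modulo `πᴺ`, the `Rh`-span of the image of an `R`-module `P` is the image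
of `P`. -/
theorem exists_approx (P : Submodule R F) (S' : Set Fh)
    (hS' : ∀ a ∈ S', ∃ h ∈ P, a = ι h) (N : ℕ) :
    ∀ y ∈ Submodule.span Rh S', ∃ g ∈ P, ∃ w ∈ Submodule.span Rh S',
      y = ι g + algebraMap Rh Fh (ρ π) ^ N * w := by
  intro y hy
  induction hy using Submodule.span_induction with
  | mem a ha =>
    obtain ⟨h, hP, rfl⟩ := hS' a ha
    exact ⟨h, hP, 0, Submodule.zero_mem _, by rw [mul_zero, add_zero]⟩
  | zero => exact ⟨0, P.zero_mem, 0, Submodule.zero_mem _, by rw [map_zero, mul_zero, add_zero]⟩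
  | add y y' _ _ ih ih' =>
    obtain ⟨g, hg, w, hw, rfl⟩ := ih
    obtain ⟨g', hg', w', hw', rfl⟩ := ih'
    exact ⟨g + g', P.add_mem hg hg', w + w', Submodule.add_mem _ hw hw', by
      rw [map_add]; ring⟩
  | smul d y hy ih =>
    obtain ⟨g, hg, w, hw, hyw⟩ := ih
    obtain ⟨x, z, hd⟩ := hS.dense N d
    refine ⟨x • g, P.smul_mem x hg, ρ x • w + z • y,
      Submodule.add_mem _ (Submodule.smul_mem _ _ hw) (Submodule.smul_mem _ _ hy), ?_⟩
    have h1 : d • y = ρ x • y + algebraMap Rh Fh (ρ π) ^ N * (z • y) := by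
      rw [hd, add_smul, Algebra.smul_def (ρ π ^ N * z), map_mul, map_pow, mul_assoc,
        ← Algebra.smul_def z]
    have h2 : ρ x • y = ι (x • g) + algebraMap Rh Fh (ρ π) ^ N * (ρ x • w) := by
      rw [hS.map_smul', hyw, smul_add, ← mul_smul_comm]
    rw [h1, h2, mul_add, add_assoc]

end FrameSetting

/-- Uniformisation of an exponent over a finite set. -/
theorem exists_uniform {α : Type*} (T : Finset α) (Q : α → ℕ → Prop)
    (hmono : ∀ a n m, n ≤ m → Q a n → Q a m) (h : ∀ a ∈ T, ∃ n, Q a n) :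
    ∃ n0, ∀ a ∈ T, Q a n0 := by
  classical
  induction T using Finset.induction_on with
  | empty => exact ⟨0, fun a ha => absurd ha (Finset.notMem_empty a)⟩
  | insert a s _ ih =>
    obtain ⟨n1, h1⟩ := ih (fun b hb => h b (Finset.mem_insert_of_mem hb))
    obtain ⟨n2, h2⟩ := h a (Finset.mem_insert_self a s)
    refine ⟨max n1 n2, fun b hb => ?_⟩
    rcases Finset.mem_insert.mp hb with rfl | hb
    · exact hmono _ _ _ (le_max_right _ _) h2
    · exact hmono _ _ _ (le_max_left _ _) (h1 b hb)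

/-! ### Frames and the descended lattice -/

/-- Compatibility of a global `R[1/π]`-lattice `IK ⊆ F` with a `π`-adic frame `Ih ⊆ Fh`:
`Ih[1/π] = IK · Rh[1/π]`. -/
structure FrameCompat (ι : F →+* Fh) (ρ : R →+* Rh) (π : R)
    (IK : Submodule R F) (Ih : Submodule Rh Fh) : Prop where
  inv_mem : ∀ x ∈ IK, (algebraMap R F π)⁻¹ * x ∈ IK
  into : ∀ x ∈ IK, ∃ n : ℕ, ι (algebraMap R F π ^ n * x) ∈ Ih
  onto : ∀ y ∈ Ih, ∃ n : ℕ,
    algebraMap Rh Fh (ρ π) ^ n * y ∈ Submodule.span Rh (ι '' (IK : Set F))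

/-- The descended lattice `I = {x ∈ IK | ι x ∈ Ih}`. -/
def descend (hS : FrameSetting ι ρ π) (IK : Submodule R F) (Ih : Submodule Rh Fh) :
    Submodule R F where
  carrier := {x | x ∈ IK ∧ ι x ∈ Ih}
  add_mem' := by
    rintro x y ⟨hx, hx'⟩ ⟨hy, hy'⟩
    exact ⟨IK.add_mem hx hy, by rw [map_add]; exact Ih.add_mem hx' hy'⟩
  zero_mem' := ⟨IK.zero_mem, by rw [map_zero]; exact Ih.zero_mem⟩
  smul_mem' := by
    rintro c x ⟨hx, hx'⟩
    exact ⟨IK.smul_mem c hx, by rw [hS.map_smul']; exact Ih.smul_mem _ hx'⟩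

section Descend

variable (hS : FrameSetting ι ρ π) {IK JK : Submodule R F} {Ih Jh : Submodule Rh Fh}

theorem mem_descend {x : F} : x ∈ descend hS IK Ih ↔ x ∈ IK ∧ ι x ∈ Ih := Iff.rfl

theorem descend_le : descend hS IK Ih ≤ IK := fun _ hx => hx.1

theorem image_descend_subset : ι '' (descend hS IK Ih : Set F) ⊆ (Ih : Set Fh) := by
  rintro _ ⟨x, hx, rfl⟩
  exact hx.2

theorem span_image_descend_le :
    Submodule.span Rh (ι '' (descend hS IK Ih : Set F)) ≤ Ih :=
  Submodule.span_le.mpr (image_descend_subset hS)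

theorem pow_smul_eq (n : ℕ) (x : F) : (π ^ n) • x = algebraMap R F π ^ n * x := by
  rw [Algebra.smul_def, map_pow]

theorem inv_pow_mul_mem (hI : FrameCompat ι ρ π IK Ih) (m : ℕ) {x : F} (hx : x ∈ IK) :
    ((algebraMap R F π)⁻¹) ^ m * x ∈ IK := by
  induction m with
  | zero => rwa [pow_zero, one_mul]
  | succ m ih =>
    rw [pow_succ', mul_assoc]
    exact hI.inv_mem _ ih

/-- (M1) every element of `IK` is moved into `I` by a power of `π`. -/
theorem exists_pow_smul_mem_descend (hI : FrameCompat ι ρ π IK Ih) {x : F} (hx : x ∈ IK) :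
    ∃ n : ℕ, (π ^ n) • x ∈ descend hS IK Ih := by
  obtain ⟨n, hn⟩ := hI.into x hx
  exact ⟨n, IK.smul_mem _ hx, by rw [pow_smul_eq]; exact hn⟩

theorem pow_smul_mem_descend_mono {n m : ℕ} (hnm : n ≤ m) {x : F}
    (hx : (π ^ n) • x ∈ descend hS IK Ih) : (π ^ m) • x ∈ descend hS IK Ih := by
  obtain ⟨k, rfl⟩ := Nat.exists_eq_add_of_le hnm
  rw [pow_add, mul_comm, mul_smul]
  exact (descend hS IK Ih).smul_mem _ hx

/-- **(L1)** `I · Rh = Ih`. -/
theorem span_image_descend (hI : FrameCompat ι ρ π IK Ih) :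
    Submodule.span Rh (ι '' (descend hS IK Ih : Set F)) = Ih := by
  classical
  apply le_antisymm (span_image_descend_le hS)
  intro g hg
  set πh : Fh := algebraMap Rh Fh (ρ π) with hπh
  have hπh0 : πh ≠ 0 := hS.pih_ne
  obtain ⟨m, hm⟩ := hI.onto g hg
  obtain ⟨T, hT, hmT⟩ := Submodule.mem_span_finite_of_mem_span hm
  -- a uniform exponent for the finitely many generators
  obtain ⟨n0, hn0⟩ := exists_uniform T
    (fun a n => ∃ h ∈ IK, a = ι h ∧ (π ^ n) • h ∈ descend hS IK Ih)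
    (fun a n m' hnm => by
      rintro ⟨h, hh, rfl, hmem⟩
      exact ⟨h, hh, rfl, pow_smul_mem_descend_mono hS hnm hmem⟩)
    (fun a ha => by
      obtain ⟨h, hh, rfl⟩ := hT ha
      obtain ⟨n, hn⟩ := exists_pow_smul_mem_descend hS hI hh
      exact ⟨n, h, hh, rfl, hn⟩)
  -- `πh ^ n0 * w ∈ span (ι '' I)` for `w` in the span of the generators
  have hw'all : ∀ w ∈ Submodule.span Rh (↑T : Set Fh),
      πh ^ n0 * w ∈ Submodule.span Rh (ι '' (descend hS IK Ih : Set F)) := by
    intro w hw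
    induction hw using Submodule.span_induction with
    | mem a ha =>
      obtain ⟨h, _, rfl, hmem⟩ := hn0 a ha
      apply Submodule.subset_span
      refine ⟨(π ^ n0) • h, hmem, ?_⟩
      rw [pow_smul_eq, map_mul, map_pow, hS.map_pi]
    | zero => rw [mul_zero]; exact Submodule.zero_mem _
    | add y y' _ _ ih ih' => rw [mul_add]; exact Submodule.add_mem _ ih ih'
    | smul d y _ ih =>
      rw [Algebra.smul_def, mul_left_comm, ← Algebra.smul_def]
      exact Submodule.smul_mem _ d ih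
  -- approximate
  obtain ⟨g0, hg0, w, hw, hgw⟩ := hS.exists_approx IK (↑T)
    (fun a ha => by
      obtain ⟨h, hh, rfl⟩ := hT ha
      exact ⟨h, hh, rfl⟩) (m + n0) _ hmT
  have hw' : πh ^ n0 * w ∈ Submodule.span Rh (ι '' (descend hS IK Ih : Set F)) := hw'all w hw
  -- the descended element
  set g' : F := ((algebraMap R F π)⁻¹) ^ m * g0 with hg'
  have hg'K : g' ∈ IK := inv_pow_mul_mem hI m hg0
  have hιg' : ι g' = (πh⁻¹) ^ m * ι g0 := by
    rw [hg', map_mul, map_pow, map_inv₀, hS.map_pi]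
  have hgeq : g = ι g' + πh ^ n0 * w := by
    rw [hιg']
    have h1 : πh ^ m * g = πh ^ m * ((πh⁻¹) ^ m * ι g0 + πh ^ n0 * w) := by
      rw [hgw, mul_add, ← mul_assoc, ← mul_pow, mul_inv_cancel₀ hπh0, one_pow, one_mul, pow_add]
      ring
    exact mul_left_cancel₀ (pow_ne_zero m hπh0) h1
  have hιg'mem : ι g' ∈ Ih := by
    have : ι g' = g - πh ^ n0 * w := by rw [hgeq]; ring
    rw [this]
    exact Ih.sub_mem hg (span_image_descend_le hS hw')
  rw [hgeq]
  exact Submodule.add_mem _ (Submodule.subset_span ⟨g', ⟨hg'K, hιg'mem⟩, rfl⟩) hw'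

/-! ### Products -/

/-- (M2) if `π`-powers move `A` into `A'` and `B` into `B'`, they move `A * B` into `A' * B'`. -/
theorem exists_pow_smul_mem_mul {A A' B B' : Submodule R F}
    (hA : ∀ x ∈ A, ∃ n : ℕ, (π ^ n) • x ∈ A') (hB : ∀ x ∈ B, ∃ n : ℕ, (π ^ n) • x ∈ B') :
    ∀ x ∈ A * B, ∃ n : ℕ, (π ^ n) • x ∈ A' * B' := by
  intro x hx
  refine Submodule.mul_induction_on hx ?_ ?_
  · intro a ha b hb
    obtain ⟨n, hn⟩ := hA a ha
    obtain ⟨m, hm⟩ := hB b hb
    refine ⟨n + m, ?_⟩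
    have : (π ^ (n + m)) • (a * b) = ((π ^ n) • a) * ((π ^ m) • b) := by
      rw [smul_mul_smul_comm, pow_add]
    rw [this]
    exact Submodule.mul_mem_mul hn hm
  · rintro x y ⟨n, hn⟩ ⟨m, hm⟩
    refine ⟨n + m, ?_⟩
    rw [smul_add]
    refine Submodule.add_mem _ ?_ ?_
    · rw [pow_add, mul_comm (π ^ n) (π ^ m), mul_smul]
      exact Submodule.smul_mem _ _ hn
    · rw [pow_add, mul_smul]
      exact Submodule.smul_mem _ _ hm

/-- (M3) powers. -/
theorem exists_pow_smul_mem_pow {A A' : Submodule R F}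
    (hA : ∀ x ∈ A, ∃ n : ℕ, (π ^ n) • x ∈ A') (p : ℕ) :
    ∀ x ∈ A ^ p, ∃ n : ℕ, (π ^ n) • x ∈ A' ^ p := by
  induction p with
  | zero =>
    intro x hx
    rw [pow_zero] at hx ⊢
    exact ⟨0, by rwa [pow_zero, one_smul]⟩
  | succ p ih =>
    intro x hx
    rw [pow_succ] at hx ⊢
    exact exists_pow_smul_mem_mul ih hA x hx

include hS in
/-- the image of `I ^ p` lies in `Ih ^ p`. -/
theorem map_mem_pow {A : Submodule R F} {Ah : Submodule Rh Fh}
    (hA : ∀ x ∈ A, ι x ∈ Ah) (p : ℕ) : ∀ x ∈ A ^ p, ι x ∈ Ah ^ p := by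
  induction p with
  | zero =>
    intro x hx
    rw [pow_zero, Submodule.mem_one] at hx
    obtain ⟨a, rfl⟩ := hx
    rw [pow_zero, Submodule.mem_one]
    exact ⟨ρ a, (hS.compat a).symm⟩
  | succ p ih =>
    intro x hx
    rw [pow_succ] at hx ⊢
    refine Submodule.mul_induction_on hx ?_ ?_
    · intro a ha b hb
      rw [map_mul]
      exact Submodule.mul_mem_mul (ih a ha) (hA b hb)
    · intro x y ihx ihy
      rw [map_add]
      exact Submodule.add_mem _ ihx ihy

/-- `span (ι '' A) * span (ι '' B) ≤ span (ι '' (A * B))`. -/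
theorem span_image_mul_le (A B : Submodule R F) :
    Submodule.span Rh (ι '' (A : Set F)) * Submodule.span Rh (ι '' (B : Set F)) ≤
      Submodule.span Rh (ι '' ((A * B : Submodule R F) : Set F)) := by
  rw [Submodule.span_mul_span]
  apply Submodule.span_le.mpr
  rintro _ ⟨_, ⟨a, ha, rfl⟩, _, ⟨b, hb, rfl⟩, rfl⟩
  apply Submodule.subset_span
  exact ⟨a * b, Submodule.mul_mem_mul ha hb, map_mul ι a b⟩

theorem span_image_pow_le (A : Submodule R F) (p : ℕ) :
    Submodule.span Rh (ι '' (A : Set F)) ^ p ≤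
      Submodule.span Rh (ι '' ((A ^ p : Submodule R F) : Set F)) := by
  induction p with
  | zero =>
    rw [pow_zero, pow_zero]
    intro y hy
    rw [Submodule.mem_one] at hy
    obtain ⟨b, rfl⟩ := hy
    rw [Algebra.algebraMap_eq_smul_one]
    apply Submodule.smul_mem
    apply Submodule.subset_span
    exact ⟨1, Submodule.one_le.mp le_rfl, map_one ι⟩
  | succ p ih =>
    rw [pow_succ, pow_succ]
    exact (mul_le_mul' ih le_rfl).trans (span_image_mul_le _ _)

/-! ### The unit ideal lemma -/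

include hS in
/-- **(U)** an `R`-submodule `𝔞 ⊆ R` which generates the unit ideal of `Rh` and contains a power
of `π` is the unit ideal. -/
theorem one_mem_of_span_of_pow (𝔞 : Submodule R F) (hle : 𝔞 ≤ 1)
    (h1 : (1 : Fh) ∈ Submodule.span Rh (ι '' (𝔞 : Set F)))
    (hpow : ∃ n : ℕ, algebraMap R F π ^ n ∈ 𝔞) : (1 : F) ∈ 𝔞 := by
  set πF : F := algebraMap R F π with hπF
  set πh : Fh := algebraMap Rh Fh (ρ π) with hπh
  have hπF0 : πF ≠ 0 := hS.pi_ne
  obtain ⟨n, hn⟩ := hpow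
  -- `1 = ι u + πh * w`
  obtain ⟨u, hu, w, hw, h1w⟩ := hS.exists_approx 𝔞 (ι '' (𝔞 : Set F))
    (fun a ha => by
      obtain ⟨h, hh, rfl⟩ := ha
      exact ⟨h, hh, rfl⟩) 1 1 h1
  rw [pow_one] at h1w
  -- `w ∈ Rh`
  have hwR : ∃ b : Rh, w = algebraMap Rh Fh b := by
    have hle' : Submodule.span Rh (ι '' (𝔞 : Set F)) ≤ (1 : Submodule Rh Fh) := by
      apply Submodule.span_le.mpr
      rintro _ ⟨x, hx, rfl⟩
      obtain ⟨a, rfl⟩ := Submodule.mem_one.mp (hle hx)
      exact Submodule.mem_one.mpr ⟨ρ a, (hS.compat a).symm⟩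
    obtain ⟨b, hb⟩ := Submodule.mem_one.mp (hle' hw)
    exact ⟨b, hb.symm⟩
  obtain ⟨a, ha⟩ := Submodule.mem_one.mp (hle hu)
  -- `s = (1 - u) / π ∈ R`
  set sF : F := (1 - u) * πF⁻¹ with hsF
  have hs1 : πF ^ 1 * sF = algebraMap R F (1 - a) := by
    rw [pow_one, hsF, map_sub, map_one, ha]
    field_simp
  have hs2 : ∃ b : Rh, ι sF = algebraMap Rh Fh b := by
    obtain ⟨b, hb⟩ := hwR
    refine ⟨b, ?_⟩
    rw [← hb, hsF, map_mul, map_sub, map_one, map_inv₀, hS.map_pi]
    have : (1 : Fh) - ι u = πh * w := by rw [h1w]; ring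
    rw [this, mul_comm, ← mul_assoc, inv_mul_cancel₀ hS.pih_ne, one_mul]
  obtain ⟨s, hs⟩ := hS.sat sF ⟨1, 1 - a, hs1⟩ hs2
  -- `u = 1 - π s`
  have hu' : u = algebraMap R F (1 - π * s) := by
    rw [map_sub, map_one, map_mul, ← hs, hsF]
    field_simp
    ring
  -- geometric series
  have hgeom : (1 : F) = algebraMap R F (∑ i ∈ Finset.range n, (π * s) ^ i) * u +
      algebraMap R F (s ^ n) * πF ^ n := by
    rw [hu', ← map_pow, ← map_mul, ← map_mul, ← map_add, geom_sum_mul_neg, mul_pow]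
    rw [← map_one (algebraMap R F)]
    congr 1
    ring
  rw [hgeom]
  refine 𝔞.add_mem ?_ ?_
  · rw [← Algebra.smul_def]
    exact 𝔞.smul_mem _ hu
  · rw [← Algebra.smul_def]
    exact 𝔞.smul_mem _ hn

/-! ### (L2): `I * J = 1` -/

/-- **(L2)** `I * J = 1`. -/
theorem descend_mul_descend (hI : FrameCompat ι ρ π IK Ih) (hJ : FrameCompat ι ρ π JK Jh)
    (hK : IK * JK = locSub π) (hh : Ih * Jh = 1) :
    descend hS IK Ih * descend hS JK Jh = 1 := by
  set I := descend hS IK Ih with hIdef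
  set J := descend hS JK Jh with hJdef
  -- `I * J ≤ 1`
  have hle : I * J ≤ 1 := by
    apply Submodule.mul_le.mpr
    intro a ha b hb
    have h1 : a * b ∈ locSub (F := F) π := by
      rw [← hK]
      exact Submodule.mul_mem_mul ha.1 hb.1
    have h2 : ι (a * b) ∈ (1 : Submodule Rh Fh) := by
      rw [← hh, map_mul]
      exact Submodule.mul_mem_mul ha.2 hb.2
    obtain ⟨n, c, hc⟩ := h1
    obtain ⟨d, hd⟩ := Submodule.mem_one.mp h2
    obtain ⟨a', ha'⟩ := hS.sat (a * b) ⟨n, c, hc⟩ ⟨d, hd.symm⟩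
    exact Submodule.mem_one.mpr ⟨a', ha'.symm⟩
  apply le_antisymm hle
  apply Submodule.one_le.mpr
  apply one_mem_of_span_of_pow hS (I * J) hle
  · -- `1 ∈ (I J) Rh`
    have : (1 : Fh) ∈ Ih * Jh := by rw [hh]; exact Submodule.one_le.mp le_rfl
    rw [← span_image_descend hS hI, ← span_image_descend hS hJ] at this
    exact span_image_mul_le _ _ this
  · -- a power of `π` lies in `I J`
    have h1 : (1 : F) ∈ IK * JK := by rw [hK]; exact one_mem_locSub π
    obtain ⟨n, hn⟩ := exists_pow_smul_mem_mul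
      (fun x hx => exists_pow_smul_mem_descend hS hI hx)
      (fun x hx => exists_pow_smul_mem_descend hS hJ hx) 1 h1
    refine ⟨n, ?_⟩
    rwa [pow_smul_eq, mul_one] at hn

/-! ### (L3): `p`-th powers -/

/-- **(L3)** if `IK ^ p = f R[1/π]` and `Ih ^ p = (ι f) Rh` then `I ^ p = f R`. -/
theorem descend_pow (hI : FrameCompat ι ρ π IK Ih) {f : F} (hf : f ≠ 0) (p : ℕ)
    (hK : IK ^ p = Submodule.span R {f} * locSub π)
    (hh : Ih ^ p = Submodule.span Rh {ι f}) :
    descend hS IK Ih ^ p = Submodule.span R {f} := by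
  set I := descend hS IK Ih with hIdef
  have hιf : ι f ≠ 0 := (map_ne_zero ι).mpr hf
  set 𝔞 : Submodule R F := Submodule.span R {f⁻¹} * I ^ p with h𝔞
  -- `f⁻¹ x ∈ R` for `x ∈ I ^ p`
  have hkey : ∀ x ∈ I ^ p, f⁻¹ * x ∈ (1 : Submodule R F) := by
    intro x hx
    have hxK : x ∈ IK ^ p := pow_le_pow_left' (descend_le hS) p hx
    rw [hK, Submodule.mem_span_singleton_mul] at hxK
    obtain ⟨z, ⟨n, c, hc⟩, rfl⟩ := hxK
    have hxh : ι (f * z) ∈ Ih ^ p := map_mem_pow hS (fun y (hy : y ∈ descend hS IK Ih) => hy.2) p _ hx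
    rw [hh, Submodule.mem_span_singleton] at hxh
    obtain ⟨d, hd⟩ := hxh
    have e1 : f⁻¹ * (f * z) = z := by field_simp
    rw [e1]
    have hz : ι z = algebraMap Rh Fh d := by
      have : ι f * ι z = ι f * algebraMap Rh Fh d := by
        rw [← map_mul, ← hd, Algebra.smul_def, mul_comm]
      exact mul_left_cancel₀ hιf this
    obtain ⟨a', ha'⟩ := hS.sat z ⟨n, c, hc⟩ ⟨d, hz⟩
    exact Submodule.mem_one.mpr ⟨a', ha'.symm⟩
  have hle : 𝔞 ≤ 1 := by
    apply Submodule.mul_le.mpr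
    intro c hc x hx
    obtain ⟨r, rfl⟩ := Submodule.mem_span_singleton.mp hc
    rw [smul_mul_assoc]
    exact Submodule.smul_mem _ r (hkey x hx)
  -- `1 ∈ 𝔞 Rh`
  have h1 : (1 : Fh) ∈ Submodule.span Rh (ι '' (𝔞 : Set F)) := by
    have hfp : ι f ∈ Submodule.span Rh (ι '' ((I ^ p : Submodule R F) : Set F)) := by
      apply span_image_pow_le I p
      rw [span_image_descend hS hI, hh]
      exact Submodule.mem_span_singleton_self _
    have hmul : ∀ y ∈ Submodule.span Rh (ι '' ((I ^ p : Submodule R F) : Set F)),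
        ι f⁻¹ * y ∈ Submodule.span Rh (ι '' (𝔞 : Set F)) := by
      intro y hy
      induction hy using Submodule.span_induction with
      | mem a ha =>
        obtain ⟨x, hx, rfl⟩ := ha
        apply Submodule.subset_span
        refine ⟨f⁻¹ * x, ?_, map_mul ι _ _⟩
        exact Submodule.mul_mem_mul (Submodule.mem_span_singleton_self _) hx
      | zero => rw [mul_zero]; exact Submodule.zero_mem _
      | add y y' _ _ ih ih' => rw [mul_add]; exact Submodule.add_mem _ ih ih'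
      | smul d y _ ih =>
        rw [Algebra.smul_def, mul_left_comm, ← Algebra.smul_def]
        exact Submodule.smul_mem _ d ih
    have := hmul _ hfp
    rwa [← map_mul, inv_mul_cancel₀ hf, map_one] at this
  -- a power of `π` lies in `𝔞`
  have hpow : ∃ n : ℕ, algebraMap R F π ^ n ∈ 𝔞 := by
    have hfK : f ∈ IK ^ p := by
      rw [hK, Submodule.mem_span_singleton_mul]
      exact ⟨1, one_mem_locSub π, mul_one f⟩
    obtain ⟨n, hn⟩ := exists_pow_smul_mem_pow
      (fun x hx => exists_pow_smul_mem_descend hS hI hx) p f hfK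
    refine ⟨n, ?_⟩
    have : algebraMap R F π ^ n = f⁻¹ * ((π ^ n) • f) := by
      rw [pow_smul_eq]
      field_simp
    rw [this]
    exact Submodule.mul_mem_mul (Submodule.mem_span_singleton_self _) hn
  have hone : (1 : F) ∈ 𝔞 := one_mem_of_span_of_pow hS 𝔞 hle h1 hpow
  apply le_antisymm
  · intro x hx
    obtain ⟨a, ha⟩ := Submodule.mem_one.mp (hkey x hx)
    rw [Submodule.mem_span_singleton]
    refine ⟨a, ?_⟩
    rw [Algebra.smul_def, ha]
    field_simp
  · rw [Submodule.span_singleton_le_iff_mem]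
    rw [h𝔞, Submodule.mem_span_singleton_mul] at hone
    obtain ⟨z, hz, hfz⟩ := hone
    have : z = f := by
      have := congrArg (fun t => f * t) hfz
      simpa [← mul_assoc, mul_inv_cancel₀ hf] using this
    rwa [this] at hz

include hS in
/-- **Frame descent, packaged**: the descended pair `(I, J)` has all the properties consumed by
`Hol80.holLog_dl_of_pow_eq`. -/
theorem exists_descent (hI : FrameCompat ι ρ π IK Ih) (hJ : FrameCompat ι ρ π JK Jh)
    (hK : IK * JK = locSub π) (hh : Ih * Jh = 1) {f : F} (hf : f ≠ 0) (p : ℕ)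
    (hKp : IK ^ p = Submodule.span R {f} * locSub π)
    (hhp : Ih ^ p = Submodule.span Rh {ι f}) :
    ∃ I J : Submodule R F, I ≤ IK ∧ J ≤ JK ∧
      Submodule.span Rh (ι '' (I : Set F)) = Ih ∧ Submodule.span Rh (ι '' (J : Set F)) = Jh ∧
      I * J = 1 ∧ I ^ p = Submodule.span R {f} :=
  ⟨descend hS IK Ih, descend hS JK Jh, descend_le hS, descend_le hS,
    span_image_descend hS hI, span_image_descend hS hJ,
    descend_mul_descend hS hI hJ hK hh, descend_pow hS hI hf p hKp hhp⟩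

end Descend

/-! ### A criterion for (S2) -/

/-- (S2) in divisibility form: if `R → F`, `Rh → Fh` are injective and divisibility by `πⁿ` can be
tested in `Rh` (`R / πⁿ → Rh / πⁿ` injective), then the saturation property holds. -/
theorem FrameSetting.of_div {ι : F →+* Fh} {ρ : R →+* Rh} {π : R}
    (compat : ∀ x : R, ι (algebraMap R F x) = algebraMap Rh Fh (ρ x))
    (pi_ne : algebraMap R F π ≠ 0)
    (hinj : Function.Injective (algebraMap Rh Fh))
    (dense : ∀ (n : ℕ) (y : Rh), ∃ (x : R) (z : Rh), y = ρ x + ρ π ^ n * z)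
    (hdiv : ∀ (n : ℕ) (a : R) (b : Rh), ρ a = ρ π ^ n * b → ∃ c : R, a = π ^ n * c) :
    FrameSetting ι ρ π where
  compat := compat
  pi_ne := pi_ne
  dense := dense
  sat := by
    rintro x ⟨n, a, ha⟩ ⟨b, hb⟩
    have h1 : algebraMap Rh Fh (ρ a) = algebraMap Rh Fh (ρ π ^ n * b) := by
      rw [← compat, ← ha, map_mul, map_pow, compat, hb, map_mul, map_pow]
    obtain ⟨c, hc⟩ := hdiv n a b (hinj h1)
    refine ⟨c, ?_⟩
    have h2 : algebraMap R F π ^ n * x = algebraMap R F π ^ n * algebraMap R F c := by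
      rw [ha, hc, map_mul, map_pow]
    exact mul_left_cancel₀ (pow_ne_zero n pi_ne) h2

end Fermat.Agent.T1B.AD49
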